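import Mathlib.Tactic
import Fermat.Agent.ModelChange.Basic

/-!
# Zero trace at `3` and the `3`-division polynomial

A curve over `𝔽₃` with zero trace has `b₂ = 0`; when `3 ∣ b₂` and `3 ∤ b₈` the Newton polygon
at `3` shows that the `3`-division polynomial has no rational root.
-/

set_option autoImplicit false

open WeierstrassCurve

namespace Fermat.Agent.Switches

lemma count_three : ∀ a₂ a₄ a₆ : ZMod 3, (Finset.univ.filter fun z : ZMod 3 × ZMod 3 =>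
    z.2 ^ 2 = z.1 ^ 3 + a₂ * z.1 ^ 2 + a₄ * z.1 + a₆).card = 3 → a₂ = 0 := by
  decide

/-- A curve over `𝔽₃` with zero trace has `b₂ = 0`. -/
lemma b₂_eq_zero_of_trace_eq_zero (V : WeierstrassCurve (ZMod 3)) (hΔ : V.Δ ≠ 0)
    (h : V.traceOfFrobenius = 0) : V.b₂ = 0 := by
  have : Fact (Nat.Prime 3) := ⟨Nat.prime_three⟩
  set C : VariableChange (ZMod 3) := ⟨1, 0, V.a₁, V.a₃⟩
  have hb : (C • V).b₂ = V.b₂ := by simp [variableChange_b₂, C]
  have h1 : (C • V).a₁ = 0 := by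
    simp only [variableChange_a₁, C, inv_one, Units.val_one]
    have : (3 : ZMod 3) = 0 := rfl
    linear_combination V.a₁ * this
  have h3 : (C • V).a₃ = 0 := by
    simp only [variableChange_a₃, C, inv_one, Units.val_one]
    have : (3 : ZMod 3) = 0 := rfl
    linear_combination V.a₃ * this
  have hΔ' : (C • V).Δ ≠ 0 := by simp [variableChange_Δ, C, hΔ]
  have ht := ModelChange.traceOfFrobenius_variableChange V C hΔ
  rw [h, traceOfFrobenius, WeierstrassCurve.card,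
    Nat.card_congr (ModelChange.pointEquivOption (C • V).toAffine hΔ'), Finite.card_option,
    Nat.card_zmod] at ht
  have hcard : Nat.card {z : ZMod 3 × ZMod 3 // (C • V).toAffine.Equation z.1 z.2} = 3 := by omega
  rw [Nat.card_congr (Equiv.subtypeEquivRight
    (q := fun z : ZMod 3 × ZMod 3 => z.2 ^ 2 =
      z.1 ^ 3 + (C • V).a₂ * z.1 ^ 2 + (C • V).a₄ * z.1 + (C • V).a₆)
    (fun z => by rw [Affine.equation_iff, h1, h3]; simp)), Nat.card_eq_fintype_card,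
    Fintype.card_subtype] at hcard
  have h2 := count_three _ _ _ hcard
  rw [← hb, WeierstrassCurve.b₂, h1, h2]
  simp

/-- Newton polygon at `3`: no rational root when `3 ∣ b₂` and `3 ∤ b₈`. -/
lemma no_rational_root {b₂ b₄ b₆ b₈ : ℤ} (h₂ : (3 : ℤ) ∣ b₂) (h₈ : ¬ (3 : ℤ) ∣ b₈) (q : ℚ) :
    3 * q ^ 4 + (b₂ : ℚ) * q ^ 3 + 3 * (b₄ : ℚ) * q ^ 2 + 3 * (b₆ : ℚ) * q + (b₈ : ℚ) ≠ 0 := by
  intro h
  set m := q.num with hm
  set n := (q.den : ℤ) with hn
  have hn0 : (n : ℚ) ≠ 0 := by rw [hn]; exact_mod_cast q.den_nz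
  have hq : q = (m : ℚ) / n := by rw [hm, hn]; exact_mod_cast q.num_div_den.symm
  have hz : 3 * m ^ 4 + b₂ * m ^ 3 * n + 3 * b₄ * m ^ 2 * n ^ 2 + 3 * b₆ * m * n ^ 3
      + b₈ * n ^ 4 = 0 := by
    have h' := congrArg (· * (n : ℚ) ^ 4) h
    rw [hq] at h'
    field_simp at h'
    exact_mod_cast (by linear_combination h' :
      (3 : ℚ) * m ^ 4 + b₂ * m ^ 3 * n + 3 * b₄ * m ^ 2 * n ^ 2 + 3 * b₆ * m * n ^ 3
        + b₈ * n ^ 4 = 0)
  obtain ⟨β, rfl⟩ := h₂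
  have h3n : (3 : ℤ) ∣ n := by
    have : (3 : ℤ) ∣ b₈ * n ^ 4 :=
      ⟨-(m ^ 4 + β * m ^ 3 * n + b₄ * m ^ 2 * n ^ 2 + b₆ * m * n ^ 3), by linear_combination hz⟩
    exact Int.prime_three.dvd_of_dvd_pow ((Int.prime_three.dvd_mul.1 this).resolve_left h₈)
  obtain ⟨k, hk⟩ := h3n
  have h3m : (3 : ℤ) ∣ m := by
    have : (3 : ℤ) ∣ m ^ 4 :=
      ⟨-(β * m ^ 3 * k + 3 * b₄ * m ^ 2 * k ^ 2 + 9 * b₆ * m * k ^ 3 + 9 * b₈ * k ^ 4), by
        rw [hk] at hz
        refine mul_left_cancel₀ (three_ne_zero' ℤ) ?_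
        linear_combination hz⟩
    exact Int.prime_three.dvd_of_dvd_pow this
  have hco : IsCoprime m n := by
    rw [Int.isCoprime_iff_gcd_eq_one, hm, hn]
    exact q.reduced
  exact Int.prime_three.not_isUnit (hco.isUnit_of_dvd' h3m ⟨k, hk⟩)

end Fermat.Agent.Switches
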